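import Mathlib
import Fermat.Agent.S20.CountOrbits
import Fermat.Agent.S20.CountCusp
import Fermat.Agent.S24.Counting.Card
import Fermat.Agent.S48.B.B1.Seams

/-!
# S48 / part B / block B1 / brick Cnt (1): the index of `±Γ₁(M)`

The first column modulo `M` identifies `SL(2,ℤ) ⧸ ±Γ₁(M)` with the unimodular vectors of `(ℤ/M)²`
modulo `±1`; for `M ≥ 3` the sign acts freely, hence `2 * #(SL(2,ℤ) ⧸ ±Γ₁(M)) = φ(M) ψ(M)`.
-/

set_option autoImplicit false
set_option linter.style.haveILetI false

noncomputable section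

namespace Fermat.Agent.S48.B.B1.Count1.Index

open CongruenceSubgroup Matrix.SpecialLinearGroup ModularGroup MulAction
open Fermat.Agent.S20.Count Fermat.Agent.S48.B.B1.Seams
open scoped MatrixGroups

variable (M : ℕ)

/-! ### `±Γ₁(M)` -/

theorem neg_mem_Gamma1_iff_neg (h : SL(2, ℤ)) : -h ∈ Gamma1 M ↔
    ((h 0 0 : ℤ) : ZMod M) = -1 ∧ ((h 1 1 : ℤ) : ZMod M) = -1 ∧ ((h 1 0 : ℤ) : ZMod M) = 0 := by
  rw [Gamma1_mem]
  simp only [Matrix.SpecialLinearGroup.coe_neg, Matrix.neg_apply, Int.cast_neg, neg_eq_iff_eq_neg,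
    neg_zero]

/-- the elements of `±Γ₁(M)` -/
theorem mem_PG1_iff (h : SL(2, ℤ)) : h ∈ PG1 M ↔ h ∈ Gamma1 M ∨ -h ∈ Gamma1 M := by
  constructor
  · intro hh
    let K : Subgroup SL(2, ℤ) :=
      { carrier := {h | h ∈ Gamma1 M ∨ -h ∈ Gamma1 M}
        one_mem' := Or.inl (Gamma1 M).one_mem
        mul_mem' := by
          rintro a b (ha | ha) (hb | hb)
          · exact Or.inl ((Gamma1 M).mul_mem ha hb)
          · refine Or.inr ?_
            have : -(a * b) = a * -b := by simp
            rw [this]; exact (Gamma1 M).mul_mem ha hb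
          · refine Or.inr ?_
            have : -(a * b) = -a * b := by simp
            rw [this]; exact (Gamma1 M).mul_mem ha hb
          · refine Or.inl ?_
            have : a * b = -a * -b := by simp
            rw [this]; exact (Gamma1 M).mul_mem ha hb
        inv_mem' := by
          rintro a (ha | ha)
          · exact Or.inl ((Gamma1 M).inv_mem ha)
          · refine Or.inr ?_
            have : -a⁻¹ = (-a)⁻¹ := by simp
            rw [this]; exact (Gamma1 M).inv_mem ha }
    have h1 : Gamma1 M ≤ K := fun x hx => Or.inl hx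
    have h2 : Subgroup.zpowers (-1 : SL(2, ℤ)) ≤ K := by
      rw [Subgroup.zpowers_le]
      refine Or.inr ?_
      simp only [neg_neg]
      exact (Gamma1 M).one_mem
    exact (sup_le h1 h2 : PG1 M ≤ K) hh
  · rintro (hh | hh)
    · exact (le_sup_left : Gamma1 M ≤ PG1 M) hh
    · have : h = -h * -1 := by simp
      rw [this]
      exact (PG1 M).mul_mem ((le_sup_left : Gamma1 M ≤ PG1 M) hh)
        ((le_sup_right : Subgroup.zpowers (-1 : SL(2, ℤ)) ≤ PG1 M) (Subgroup.mem_zpowers _))

theorem col_neg (g : SL(2, ℤ)) : col M (-g) = -col M g := by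
  simp [col]

/-- `g⁻¹ g' ∈ Γ₁(M)` iff `g` and `g'` have the same first column modulo `M` -/
theorem inv_mul_mem_Gamma1_iff (g g' : SL(2, ℤ)) :
    g⁻¹ * g' ∈ Gamma1 M ↔ col M g' = col M g := by
  have hdet : g 0 0 * g 1 1 - g 0 1 * g 1 0 = 1 := by
    have := g.det_coe
    rwa [Matrix.det_fin_two] at this
  have hdet' : g' 0 0 * g' 1 1 - g' 0 1 * g' 1 0 = 1 := by
    have := g'.det_coe
    rwa [Matrix.det_fin_two] at this
  have hd := congrArg (Int.cast : ℤ → ZMod M) hdet
  have hd' := congrArg (Int.cast : ℤ → ZMod M) hdet'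
  push_cast at hd hd'
  have e00 : (g⁻¹ * g') 0 0 = g 1 1 * g' 0 0 - g 0 1 * g' 1 0 := by
    rw [Matrix.SpecialLinearGroup.coe_mul, Matrix.SpecialLinearGroup.coe_inv,
      Matrix.adjugate_fin_two, Matrix.mul_apply, Fin.sum_univ_two]
    simp
    ring
  have e10 : (g⁻¹ * g') 1 0 = g 0 0 * g' 1 0 - g 1 0 * g' 0 0 := by
    rw [Matrix.SpecialLinearGroup.coe_mul, Matrix.SpecialLinearGroup.coe_inv,
      Matrix.adjugate_fin_two, Matrix.mul_apply, Fin.sum_univ_two]
    simp
    ring
  have e11 : (g⁻¹ * g') 1 1 = g 0 0 * g' 1 1 - g 1 0 * g' 0 1 := by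
    rw [Matrix.SpecialLinearGroup.coe_mul, Matrix.SpecialLinearGroup.coe_inv,
      Matrix.adjugate_fin_two, Matrix.mul_apply, Fin.sum_univ_two]
    simp
    ring
  rw [Gamma1_mem, e00, e10, e11]
  simp only [col, Prod.mk.injEq]
  push_cast
  constructor
  · rintro ⟨h1, h2, h3⟩
    constructor
    · linear_combination ((g 0 0 : ℤ) : ZMod M) * h1 + ((g 0 1 : ℤ) : ZMod M) * h3 -
        ((g' 0 0 : ℤ) : ZMod M) * hd
    · linear_combination ((g 1 0 : ℤ) : ZMod M) * h1 + ((g 1 1 : ℤ) : ZMod M) * h3 -
        ((g' 1 0 : ℤ) : ZMod M) * hd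
  · rintro ⟨h1, h2⟩
    refine ⟨?_, ?_, ?_⟩
    · rw [h1, h2]; linear_combination hd
    · rw [← h1, ← h2]; linear_combination hd'
    · rw [h1, h2]; ring

/-- equality of cosets modulo `±Γ₁(M)` in terms of first columns -/
theorem mk_eq_mk_iff1 (g g' : SL(2, ℤ)) :
    (QuotientGroup.mk g : Q1 M) = QuotientGroup.mk g' ↔
      col M g' = col M g ∨ col M g' = -col M g := by
  rw [QuotientGroup.eq, mem_PG1_iff, inv_mul_mem_Gamma1_iff]
  have : -(g⁻¹ * g') = g⁻¹ * -g' := by simp
  rw [this, inv_mul_mem_Gamma1_iff, col_neg, neg_eq_iff_eq_neg]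

theorem smul_mk1 (h g : SL(2, ℤ)) : h • (QuotientGroup.mk g : Q1 M) = QuotientGroup.mk (h * g) :=
  rfl

/-! ### Unimodular vectors modulo `±1` -/

/-- negation of unimodular vectors -/
def negV (v : V M) : V M := ⟨-v.1, by
  obtain ⟨x, y, hxy⟩ := v.2
  exact ⟨-x, -y, by simp only [Prod.fst_neg, Prod.snd_neg]; linear_combination hxy⟩⟩

@[simp] theorem negV_val (v : V M) : (negV M v).1 = -v.1 := rfl

theorem negV_negV (v : V M) : negV M (negV M v) = v := Subtype.ext (neg_neg _)

/-- for `M ≥ 3` no unimodular vector is its own negative -/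
theorem negV_ne (hM : 3 ≤ M) (v : V M) : negV M v ≠ v := by
  intro h
  have h0 : -v.1 = v.1 := congrArg Subtype.val h
  have h1 : -v.1.1 = v.1.1 := congrArg Prod.fst h0
  have h2 : -v.1.2 = v.1.2 := congrArg Prod.snd h0
  obtain ⟨x, y, hxy⟩ := v.2
  have h3 : (2 : ZMod M) = 0 := by
    linear_combination (-2) * hxy - x * h1 - y * h2
  have h4 : ((2 : ℕ) : ZMod M) = 0 := by exact_mod_cast h3
  rw [ZMod.natCast_eq_zero_iff] at h4
  have := Nat.le_of_dvd (by norm_num) h4
  omega

/-- the relation `w = ± v` -/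
def signSetoid : Setoid (V M) where
  r v w := w = v ∨ w = negV M v
  iseqv := by
    refine ⟨fun v => Or.inl rfl, ?_, ?_⟩
    · rintro v w (h | h)
      · exact Or.inl h.symm
      · exact Or.inr (by rw [h, negV_negV])
    · rintro u v w (h | h) (h' | h')
      · exact Or.inl (h'.trans h)
      · exact Or.inr (by rw [h', h])
      · exact Or.inr (by rw [h', h])
      · exact Or.inl (by rw [h', h, negV_negV])

variable [NeZero M]

/-- the coset of a unimodular vector -/
def cosetOfV (v : V M) : Q1 M := QuotientGroup.mk (liftV M v)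

theorem cosetOfV_eq_iff (v w : V M) : cosetOfV M v = cosetOfV M w ↔ (signSetoid M).r v w := by
  unfold cosetOfV
  rw [mk_eq_mk_iff1, col_liftV, col_liftV]
  constructor
  · rintro (h | h)
    · exact Or.inl (Subtype.ext h)
    · exact Or.inr (Subtype.ext h)
  · rintro (h | h)
    · exact Or.inl (congrArg Subtype.val h)
    · exact Or.inr (congrArg Subtype.val h)

theorem cosetOfV_col (g : SL(2, ℤ)) :
    cosetOfV M ⟨col M g, col_isUnimod M g⟩ = QuotientGroup.mk g := by
  unfold cosetOfV
  rw [mk_eq_mk_iff1, col_liftV]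
  exact Or.inl rfl

theorem cosetOfV_surjective : Function.Surjective (cosetOfV M) := by
  intro q
  induction q using QuotientGroup.induction_on with
  | H g => exact ⟨⟨col M g, col_isUnimod M g⟩, cosetOfV_col M g⟩

/-- `SL(2,ℤ) ⧸ ±Γ₁(M)` is the set of unimodular vectors modulo sign -/
def quotEquiv : Quotient (signSetoid M) ≃ Q1 M :=
  Equiv.ofBijective
    (Quotient.lift (cosetOfV M) fun v w h => (cosetOfV_eq_iff M v w).mpr h) ⟨by
      intro a b
      induction a using Quotient.inductionOn with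
      | h v =>
        induction b using Quotient.inductionOn with
        | h w =>
          intro h
          exact Quotient.sound ((cosetOfV_eq_iff M v w).mp h), by
      intro q
      obtain ⟨v, hv⟩ := cosetOfV_surjective M q
      exact ⟨Quotient.mk _ v, hv⟩⟩

instance : Finite (Q1 M) := by
  haveI : Finite (V M) := Subtype.finite
  exact Finite.of_equiv _ (quotEquiv M)

/-! ### Quotient by a free involution -/

omit [NeZero M] in
/-- a surjection whose fibres are the orbits of a fixed-point-free involution is two-to-one -/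
theorem two_mul_card_of_involution {X Y : Type*} [Finite X] (f : X → Y)
    (hf : Function.Surjective f) (ι : X → X) (hfree : ∀ x, ι x ≠ x)
    (hfib : ∀ x y, f x = f y ↔ y = x ∨ y = ι x) : 2 * Nat.card Y = Nat.card X := by
  classical
  haveI : Finite Y := Finite.of_surjective f hf
  haveI : Fintype X := Fintype.ofFinite X
  haveI : Fintype Y := Fintype.ofFinite Y
  have hcard : ∀ q : Y, Nat.card {x : X // f x = q} = 2 := by
    intro q
    obtain ⟨x, rfl⟩ := hf q
    have hset : {y : X | f y = f x} = {x, ι x} := by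
      ext y
      simp only [Set.mem_ofPred_eq, Set.mem_insert_iff, Set.mem_singleton_iff]
      rw [eq_comm, hfib x y]
    have : Nat.card {y : X // f y = f x} = ({x, ι x} : Set X).ncard := by
      rw [← hset]; rfl
    rw [this, Set.ncard_pair (hfree x).symm]
  rw [Nat.card_congr (Equiv.sigmaFiberEquiv f).symm, Nat.card_sigma]
  simp only [hcard, Finset.sum_const, Finset.card_univ, smul_eq_mul, Nat.card_eq_fintype_card]
  ring

omit [NeZero M] in
/-- the quotient of a finite set by a fixed-point-free involution has half as many elements -/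
theorem two_mul_card_quotient {X : Type*} [Finite X] (ι : X → X)
    (hfree : ∀ x, ι x ≠ x) (s : Setoid X) (hs : ∀ x y, s.r x y ↔ y = x ∨ y = ι x) :
    2 * Nat.card (Quotient s) = Nat.card X :=
  two_mul_card_of_involution (Quotient.mk s) Quotient.mk_surjective ι hfree fun x y => by
    rw [Quotient.eq]; exact hs x y

/-- **the index of `±Γ₁(M)`** -/
theorem two_mul_card_Q1 (hM : 3 ≤ M) :
    2 * Nat.card (Q1 M) = M.totient * ModularCurve.dedekindPsi M := by
  haveI : Finite (V M) := Subtype.finite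
  rw [← Nat.card_congr (quotEquiv M),
    two_mul_card_quotient (negV M) (negV_ne M hM) (signSetoid M)
      (fun _ _ => Iff.rfl)]
  exact Fermat.Agent.S24.Counting.Card.card_prim M

theorem two_dvd_totient_mul_psi (hM : 3 ≤ M) : 2 ∣ M.totient * ModularCurve.dedekindPsi M :=
  ⟨_, (two_mul_card_Q1 M hM).symm⟩

theorem card_Q1 (hM : 3 ≤ M) : Nat.card (Q1 M) = d1 M := by
  unfold d1
  rw [← two_mul_card_Q1 M hM, Nat.mul_div_cancel_left _ (by norm_num)]

end Fermat.Agent.S48.B.B1.Count1.Index

end
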