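import Mathlib
import Fermat.Agent.S24.Counting.Cusps
import Fermat.Agent.S48.B.B1.Count1.Index

/-!
# S48 / part B / block B1 / brick Cnt (3): the cusps of `X₁(M)`

The `⟨T⟩`-orbits on `SL(2,ℤ) ⧸ ±Γ₁(M)` are the classes of unimodular vectors `(x, y)` of `(ℤ/M)²`
under `(x, y) ∼ ± (x + k y, y)`.  Before dividing by the sign there are `∑_{d ∣ M} φ(d) φ(M/d)`
classes (invariants: `y` and `x` modulo `gcd(y, M)`, a unit); for `M ≥ 5` the sign acts freely
on them.
-/

set_option autoImplicit false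
set_option linter.style.haveILetI false

noncomputable section

namespace Fermat.Agent.S48.B.B1.Count1.Cusps

open CongruenceSubgroup Matrix.SpecialLinearGroup ModularGroup MulAction
open Fermat.Agent.S20.Count Fermat.Agent.S48.B.B1.Seams Fermat.Agent.S48.B.B1.Count1.Index
open scoped MatrixGroups

variable (M : ℕ)

/-! ### The translations `(x, y) ↦ (x + k y, y)` -/

/-- `(x, y) ↦ (x + k y, y)` on unimodular vectors -/
def tV (k : ZMod M) (v : V M) : V M := ⟨(v.1.1 + k * v.1.2, v.1.2), by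
  obtain ⟨x, y, hxy⟩ := v.2
  exact ⟨x, y - x * k, by simp only; linear_combination hxy⟩⟩

@[simp] theorem tV_fst (k : ZMod M) (v : V M) : (tV M k v).1.1 = v.1.1 + k * v.1.2 := rfl
@[simp] theorem tV_snd (k : ZMod M) (v : V M) : (tV M k v).1.2 = v.1.2 := rfl

theorem tV_zero (v : V M) : tV M 0 v = v := by
  apply Subtype.ext
  ext <;> simp

theorem tV_add (k l : ZMod M) (v : V M) : tV M (k + l) v = tV M k (tV M l v) := by
  apply Subtype.ext
  ext
  · simp only [tV_fst, tV_snd]; ring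
  · simp

theorem negV_tV (k : ZMod M) (v : V M) : negV M (tV M k v) = tV M k (negV M v) := by
  apply Subtype.ext
  ext
  · simp only [negV_val, Prod.fst_neg, Prod.snd_neg, tV_fst]; ring
  · simp

theorem tV_neg_tV (k : ZMod M) (v : V M) : tV M (-k) (tV M k v) = v := by
  rw [← tV_add, neg_add_cancel, tV_zero]

/-- the classes of `(x, y) ∼ (x + k y, y)` -/
def tSetoid : Setoid (V M) where
  r v w := ∃ k : ZMod M, w = tV M k v
  iseqv := by
    refine ⟨fun v => ⟨0, (tV_zero M v).symm⟩, ?_, ?_⟩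
    · rintro v w ⟨k, rfl⟩
      exact ⟨-k, (tV_neg_tV M k v).symm⟩
    · rintro u v w ⟨k, rfl⟩ ⟨l, rfl⟩
      exact ⟨l + k, (tV_add M l k u).symm⟩

/-- the classes of `(x, y) ∼ ± (x + k y, y)`: the cusps of `X₁(M)` -/
def cuspSetoid1 : Setoid (V M) where
  r v w := ∃ k : ZMod M, w = tV M k v ∨ w = negV M (tV M k v)
  iseqv := by
    refine ⟨fun v => ⟨0, Or.inl (tV_zero M v).symm⟩, ?_, ?_⟩
    · rintro v w ⟨k, rfl | rfl⟩
      · exact ⟨-k, Or.inl (tV_neg_tV M k v).symm⟩
      · refine ⟨-k, Or.inr ?_⟩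
        rw [← negV_tV, negV_negV, tV_neg_tV]
    · rintro u v w ⟨k, rfl | rfl⟩ ⟨l, rfl | rfl⟩
      · exact ⟨l + k, Or.inl (tV_add M l k u).symm⟩
      · exact ⟨l + k, Or.inr (by rw [tV_add])⟩
      · exact ⟨l + k, Or.inr (by rw [tV_add, negV_tV M l])⟩
      · exact ⟨l + k, Or.inl (by rw [← negV_tV, negV_negV, tV_add])⟩

variable [NeZero M]

/-! ### The bridge to `⟨T⟩`-orbits -/

/-- the `⟨T⟩`-orbit of the coset attached to a unimodular vector -/
def orbitOfV1 (v : V M) : orbitRel.Quotient (Subgroup.zpowers (T : SL(2, ℤ))) (Q1 M) :=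
  Quotient.mk'' (cosetOfV M v)

theorem col_T_zpow_mul_liftV (n : ℤ) (w : V M) :
    col M (T ^ n * liftV M w) = (tV M (n : ZMod M) w).1 := by
  rw [col_T_zpow_mul, col_liftV]
  rfl

theorem orbitOfV1_eq_iff (v w : V M) :
    orbitOfV1 M v = orbitOfV1 M w ↔ (cuspSetoid1 M).r v w := by
  unfold orbitOfV1
  rw [Quotient.eq'', orbitRel_apply, mem_orbit_iff]
  constructor
  · rintro ⟨⟨t, ht⟩, h⟩
    obtain ⟨n, rfl⟩ := Subgroup.mem_zpowers_iff.mp ht
    have h' : (QuotientGroup.mk (T ^ n * liftV M w) : Q1 M) = QuotientGroup.mk (liftV M v) := h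
    rw [mk_eq_mk_iff1, col_T_zpow_mul_liftV, col_liftV] at h'
    -- `v = ± tV n w`
    refine (cuspSetoid1 M).symm ⟨(n : ZMod M), ?_⟩
    rcases h' with h' | h'
    · exact Or.inl (Subtype.ext h')
    · exact Or.inr (Subtype.ext h')
  · intro hvw
    obtain ⟨k, hk⟩ := (cuspSetoid1 M).symm hvw
    refine ⟨⟨T ^ ((k.val : ℤ)), Subgroup.zpow_mem_zpowers T _⟩, ?_⟩
    show (QuotientGroup.mk (T ^ ((k.val : ℤ)) * liftV M w) : Q1 M) = QuotientGroup.mk (liftV M v)
    rw [mk_eq_mk_iff1, col_T_zpow_mul_liftV, col_liftV]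
    have hkk : (((k.val : ℕ) : ℤ) : ZMod M) = k := by
      push_cast
      exact ZMod.natCast_zmod_val k
    rw [hkk]
    rcases hk with hk | hk
    · exact Or.inl (congrArg Subtype.val hk)
    · exact Or.inr (congrArg Subtype.val hk)

theorem orbitOfV1_surjective : Function.Surjective (orbitOfV1 M) := by
  intro o
  induction o using Quotient.inductionOn' with
  | h q =>
    obtain ⟨v, hv⟩ := cosetOfV_surjective M q
    exact ⟨v, by unfold orbitOfV1; rw [hv]⟩

/-- **bridge**: the `⟨T⟩`-orbits on `SL(2,ℤ) ⧸ ±Γ₁(M)` are the classes of `cuspSetoid1` -/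
theorem card_orbits_T_eq :
    Nat.card (orbitRel.Quotient (Subgroup.zpowers (T : SL(2, ℤ))) (Q1 M)) =
      Nat.card (Quotient (cuspSetoid1 M)) := by
  symm
  refine Nat.card_congr (Equiv.ofBijective
    (Quotient.lift (orbitOfV1 M) fun v w h => (orbitOfV1_eq_iff M v w).mpr h) ⟨?_, ?_⟩)
  · intro a b
    induction a using Quotient.inductionOn with
    | h v =>
      induction b using Quotient.inductionOn with
      | h w =>
        intro h
        exact Quotient.sound ((orbitOfV1_eq_iff M v w).mp h)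
  · intro o
    obtain ⟨v, hv⟩ := orbitOfV1_surjective M o
    exact ⟨Quotient.mk _ v, hv⟩

/-! ### The sign on the classes of `tSetoid` -/

omit [NeZero M] in
theorem four_ne_zero_of_le (hM : 5 ≤ M) : (4 : ZMod M) ≠ 0 := by
  intro h3
  have h4 : ((4 : ℕ) : ZMod M) = 0 := by exact_mod_cast h3
  rw [ZMod.natCast_eq_zero_iff] at h4
  have := Nat.le_of_dvd (by norm_num) h4
  omega

/-- the sign on the classes of `tSetoid` -/
def negT : Quotient (tSetoid M) → Quotient (tSetoid M) :=
  Quotient.map (negV M) (by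
    rintro v w ⟨k, rfl⟩
    exact ⟨k, negV_tV M k v⟩)

omit [NeZero M] in
theorem negT_mk (v : V M) : negT M (Quotient.mk _ v) = Quotient.mk _ (negV M v) := rfl

omit [NeZero M] in
/-- for `M ≥ 5` the sign has no fixed class -/
theorem negT_ne (hM : 5 ≤ M) (a : Quotient (tSetoid M)) : negT M a ≠ a := by
  induction a using Quotient.inductionOn with
  | h v =>
    rw [negT_mk, Ne, Quotient.eq]
    rintro ⟨k, hk⟩
    have h0 : v.1 = (tV M k (negV M v)).1 := congrArg Subtype.val hk
    have h1 : v.1.1 = -v.1.1 + k * -v.1.2 := congrArg Prod.fst h0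
    have h2 : v.1.2 = -v.1.2 := congrArg Prod.snd h0
    obtain ⟨x, y, hxy⟩ := v.2
    apply four_ne_zero_of_le M hM
    have e2 : 2 * v.1.2 = 0 := by linear_combination h2
    have e1 : 4 * v.1.1 = 0 := by linear_combination 2 * h1 - k * e2
    linear_combination (-4) * hxy + x * e1 + 2 * y * e2

/-- forgetting the sign -/
def toCusp : Quotient (tSetoid M) → Quotient (cuspSetoid1 M) :=
  Quotient.map id (by
    rintro v w ⟨k, hk⟩
    exact ⟨k, Or.inl hk⟩)

omit [NeZero M] in
theorem toCusp_surjective : Function.Surjective (toCusp M) := by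
  intro c
  induction c using Quotient.inductionOn with
  | h v => exact ⟨Quotient.mk _ v, rfl⟩

omit [NeZero M] in
theorem toCusp_eq_iff (a b : Quotient (tSetoid M)) :
    toCusp M a = toCusp M b ↔ b = a ∨ b = negT M a := by
  induction a using Quotient.inductionOn with
  | h v =>
    induction b using Quotient.inductionOn with
    | h w =>
      rw [negT_mk]
      show Quotient.mk (cuspSetoid1 M) v = Quotient.mk (cuspSetoid1 M) w ↔ _
      rw [Quotient.eq, Quotient.eq, Quotient.eq]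
      constructor
      · rintro ⟨k, hk | hk⟩
        · exact Or.inl ((tSetoid M).symm ⟨k, hk⟩)
        · exact Or.inr ((tSetoid M).symm ⟨k, by rw [hk, negV_tV]⟩)
      · rintro (h | h)
        · obtain ⟨k, hk⟩ := (tSetoid M).symm h
          exact ⟨k, Or.inl hk⟩
        · obtain ⟨k, hk⟩ := (tSetoid M).symm h
          exact ⟨k, Or.inr (by rw [hk, negV_tV])⟩

omit [NeZero M] in
/-- the sign acts freely on the `∑ φ(d) φ(M/d)` classes -/
theorem two_mul_card_cusps (hM : 5 ≤ M) :
    2 * Nat.card (Quotient (cuspSetoid1 M)) = Nat.card (Quotient (tSetoid M)) := by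
  haveI : NeZero M := ⟨by omega⟩
  haveI : Finite (V M) := Subtype.finite
  exact two_mul_card_of_involution (toCusp M) (toCusp_surjective M) (negT M) (negT_ne M hM)
    (toCusp_eq_iff M)

/-! ### Counting the classes of `tSetoid` -/

/-- `gcd(y, M)` -/
def dOf (y : ZMod M) : ℕ := Nat.gcd y.val M

omit [NeZero M] in
theorem dOf_dvd (y : ZMod M) : dOf M y ∣ M := Nat.gcd_dvd_right _ _

instance neZero_dOf (y : ZMod M) : NeZero (dOf M y) :=
  ⟨(Nat.gcd_pos_of_pos_right _ (NeZero.pos M)).ne'⟩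

/-- `y ≡ 0` modulo `gcd(y, M)` -/
theorem castHom_self (y : ZMod M) : ZMod.castHom (dOf_dvd M y) (ZMod (dOf M y)) y = 0 := by
  have h : y = ((y.val : ℕ) : ZMod M) := (ZMod.natCast_zmod_val y).symm
  have h2 := congrArg (ZMod.castHom (dOf_dvd M y) (ZMod (dOf M y))) h
  rw [h2, map_natCast, ZMod.natCast_eq_zero_iff]
  exact Nat.gcd_dvd_left _ _

/-- `gcd(y, M)` is a multiple of `y` in `ZMod M` -/
theorem exists_dOf_eq_mul (y : ZMod M) : ∃ a : ZMod M, (dOf M y : ZMod M) = a * y := by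
  refine ⟨((Nat.gcdA y.val M : ℤ) : ZMod M), ?_⟩
  have h := Nat.gcd_eq_gcd_ab y.val M
  have h2 := congrArg (Int.cast : ℤ → ZMod M) h
  push_cast at h2
  rw [ZMod.natCast_self, zero_mul, add_zero, ZMod.natCast_zmod_val] at h2
  rw [dOf, h2, mul_comm]

theorem isUnit_castHom (v : V M) :
    IsUnit (ZMod.castHom (dOf_dvd M v.1.2) (ZMod (dOf M v.1.2)) v.1.1) := by
  obtain ⟨x, y, hxy⟩ := v.2
  have h := congrArg (ZMod.castHom (dOf_dvd M v.1.2) (ZMod (dOf M v.1.2))) hxy
  rw [map_add, map_mul, map_mul, castHom_self, mul_zero, add_zero, map_one] at h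
  exact IsUnit.of_mul_eq_one _ (by rw [mul_comm]; exact h)

/-- the invariants of a class: `y` and the unit `x mod gcd(y, M)` -/
def inv (v : V M) : Σ y : ZMod M, (ZMod (dOf M y))ˣ := ⟨v.1.2, (isUnit_castHom M v).unit⟩

theorem inv_tV (k : ZMod M) (v : V M) : inv M (tV M k v) = inv M v := by
  unfold inv
  refine Sigma.ext rfl (heq_of_eq (Units.ext ?_))
  show ZMod.castHom (dOf_dvd M v.1.2) (ZMod (dOf M v.1.2)) (v.1.1 + k * v.1.2) =
    ZMod.castHom (dOf_dvd M v.1.2) (ZMod (dOf M v.1.2)) v.1.1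
  rw [map_add, map_mul, castHom_self, mul_zero, add_zero]

theorem inv_eq_iff (v w : V M) : inv M v = inv M w ↔ (tSetoid M).r v w := by
  constructor
  · intro h
    obtain ⟨⟨x, y⟩, hv⟩ := v
    obtain ⟨⟨x', y'⟩, hw⟩ := w
    unfold inv at h
    obtain ⟨hy, hu⟩ := Sigma.mk.inj_iff.mp h
    simp only at hy
    subst hy
    have hu' := congrArg Units.val (eq_of_heq hu)
    simp only [IsUnit.unit_spec] at hu'
    have h0 : ZMod.castHom (dOf_dvd M y) (ZMod (dOf M y)) (x' - x) = 0 := by
      rw [map_sub, hu', sub_self]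
    obtain ⟨k, hk⟩ := (Fermat.Agent.S24.Counting.Cusps.castHom_eq_zero_iff (dOf_dvd M y) _).mp h0
    obtain ⟨a, ha⟩ := exists_dOf_eq_mul M y
    refine ⟨k * a, Subtype.ext ?_⟩
    ext
    · simp only [tV_fst]
      rw [ha] at hk
      linear_combination hk
    · rfl
  · rintro ⟨k, rfl⟩
    exact (inv_tV M k v).symm

theorem inv_surjective : Function.Surjective (inv M) := by
  rintro ⟨y, r⟩
  obtain ⟨u, hu⟩ := ZMod.unitsMap_surjective (dOf_dvd M y) r
  refine ⟨⟨((u : ZMod M), y), ⟨((u⁻¹ : (ZMod M)ˣ) : ZMod M), 0, by simp⟩⟩, ?_⟩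
  unfold inv
  refine Sigma.ext rfl (heq_of_eq (Units.ext ?_))
  simp only [IsUnit.unit_spec]
  rw [← hu, ZMod.unitsMap_def, Units.coe_map]
  rfl

/-- the classes of `tSetoid` are parametrised by `y` and a unit modulo `gcd(y, M)` -/
def invEquiv : Quotient (tSetoid M) ≃ Σ y : ZMod M, (ZMod (dOf M y))ˣ :=
  Equiv.ofBijective
    (Quotient.lift (inv M) fun v w h => (inv_eq_iff M v w).mpr h) ⟨by
      intro a b
      induction a using Quotient.inductionOn with
      | h v =>
        induction b using Quotient.inductionOn with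
        | h w =>
          intro h
          exact Quotient.sound ((inv_eq_iff M v w).mp h), by
      intro q
      obtain ⟨v, hv⟩ := inv_surjective M q
      exact ⟨Quotient.mk _ v, hv⟩⟩

open Finset in
omit [NeZero M] in
/-- regrouping by the gcd -/
theorem sum_totient_gcd [NeZero M] :
    ∑ y : ZMod M, (Nat.gcd y.val M).totient = ∑ d ∈ M.divisors, d.totient * (M / d).totient := by
  have h1 : ∑ y : ZMod M, (Nat.gcd y.val M).totient = ∑ k ∈ range M, (Nat.gcd k M).totient := by
    have himg : (univ : Finset (ZMod M)).image ZMod.val = range M := by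
      ext k
      simp only [mem_image, mem_univ, true_and, mem_range]
      constructor
      · rintro ⟨y, rfl⟩; exact ZMod.val_lt y
      · intro hk; exact ⟨(k : ZMod M), ZMod.val_natCast_of_lt hk⟩
    rw [← himg, sum_image]
    intro a _ b _ hab
    exact ZMod.val_injective M hab
  rw [h1]
  have hmaps : ∀ k ∈ range M, Nat.gcd k M ∈ M.divisors := fun k _ =>
    Nat.mem_divisors.mpr ⟨Nat.gcd_dvd_right _ _, NeZero.ne M⟩
  rw [← sum_fiberwise_of_maps_to hmaps]
  refine sum_congr rfl fun d hd => ?_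
  have hdM : d ∣ M := Nat.dvd_of_mem_divisors hd
  rw [Nat.totient_div_of_dvd hdM]
  rw [sum_congr rfl (fun k hk => by rw [(mem_filter.mp hk).2] :
    ∀ k ∈ (range M).filter (fun k => Nat.gcd k M = d), (Nat.gcd k M).totient = d.totient)]
  rw [sum_const, smul_eq_mul, mul_comm]
  congr 2
  ext k
  simp only [mem_filter, mem_range, Nat.gcd_comm]

/-- **the number of classes of `(x, y) ∼ (x + k y, y)`** -/
theorem card_tSetoid :
    Nat.card (Quotient (tSetoid M)) = ∑ d ∈ M.divisors, d.totient * (M / d).totient := by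
  rw [Nat.card_congr (invEquiv M), Nat.card_sigma, ← sum_totient_gcd M]
  refine Finset.sum_congr rfl fun y _ => ?_
  rw [Nat.card_eq_fintype_card, ZMod.card_units_eq_totient]
  rfl

/-- **the number of cusps of `X₁(M)`**, `M ≥ 5` -/
theorem two_mul_card_orbits_T (hM : 5 ≤ M) :
    2 * Nat.card (orbitRel.Quotient (Subgroup.zpowers (T : SL(2, ℤ))) (Q1 M)) =
      ∑ d ∈ M.divisors, d.totient * (M / d).totient := by
  rw [card_orbits_T_eq, two_mul_card_cusps M hM, card_tSetoid]

theorem two_dvd_sum (hM : 5 ≤ M) : 2 ∣ ∑ d ∈ M.divisors, d.totient * (M / d).totient :=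
  ⟨_, (two_mul_card_orbits_T M hM).symm⟩

theorem card_orbits_T (hM : 5 ≤ M) :
    Nat.card (orbitRel.Quotient (Subgroup.zpowers (T : SL(2, ℤ))) (Q1 M)) = cusps1 M := by
  unfold cusps1
  rw [← two_mul_card_orbits_T M hM, Nat.mul_div_cancel_left _ (by norm_num)]

end Fermat.Agent.S48.B.B1.Count1.Cusps

end
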