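import Mathlib
import Fermat.Agent.S48.B.B1.Count1.Index

/-!
# S48 / part B / block B1 / brick Cnt (2): `S` and `S T` act freely on `SL(2,ℤ) ⧸ ±Γ₁(M)`

For `M ≥ 4` no coset is fixed by `S` or `S T`; as `S² = (S T)³ = -1` acts trivially, all orbits of
`⟨S⟩` have two and all orbits of `⟨S T⟩` have three elements.
-/

set_option autoImplicit false
set_option linter.style.haveILetI false

noncomputable section

namespace Fermat.Agent.S48.B.B1.Count1.Free

open CongruenceSubgroup Matrix.SpecialLinearGroup ModularGroup MulAction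
open Fermat.Agent.S20.Count Fermat.Agent.S48.B.B1.Seams Fermat.Agent.S48.B.B1.Count1.Index
open scoped MatrixGroups

variable (M : ℕ)

/-- `-1` acts trivially -/
theorem neg_one_smul1 (q : Q1 M) : (-1 : SL(2, ℤ)) • q = q := by
  induction q using QuotientGroup.induction_on with
  | H g =>
    rw [smul_mk1, mk_eq_mk_iff1]
    refine Or.inr ?_
    have : (-1 : SL(2, ℤ)) * g = -g := by simp
    rw [this, col_neg, neg_neg]

theorem two_ne_zero_of_le (hM : 3 ≤ M) : (2 : ZMod M) ≠ 0 := by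
  intro h3
  have h4 : ((2 : ℕ) : ZMod M) = 0 := by exact_mod_cast h3
  rw [ZMod.natCast_eq_zero_iff] at h4
  have := Nat.le_of_dvd (by norm_num) h4
  omega

theorem three_ne_zero_of_le (hM : 4 ≤ M) : (3 : ZMod M) ≠ 0 := by
  intro h3
  have h4 : ((3 : ℕ) : ZMod M) = 0 := by exact_mod_cast h3
  rw [ZMod.natCast_eq_zero_iff] at h4
  have := Nat.le_of_dvd (by norm_num) h4
  omega

theorem one_ne_zero_of_le (hM : 2 ≤ M) : (1 : ZMod M) ≠ 0 := by
  intro h3
  have h4 : ((1 : ℕ) : ZMod M) = 0 := by exact_mod_cast h3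
  rw [ZMod.natCast_eq_zero_iff] at h4
  have := Nat.le_of_dvd (by norm_num) h4
  omega

/-- `S` has no fixed point (`M ≥ 3`) -/
theorem S_smul_ne (hM : 3 ≤ M) (q : Q1 M) : S • q ≠ q := by
  induction q using QuotientGroup.induction_on with
  | H g =>
    rw [smul_mk1, Ne, mk_eq_mk_iff1, col_S_mul]
    obtain ⟨x, y, hxy⟩ := col_isUnimod M g
    set a := (col M g).1 with ha
    set c := (col M g).2 with hc
    have hcol : col M g = (a, c) := rfl
    rw [hcol]
    simp only [Prod.neg_mk, Prod.mk.injEq, neg_neg]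
    rintro (⟨h1, h2⟩ | ⟨h1, h2⟩)
    · apply two_ne_zero_of_le M hM
      have e1 : 2 * a = 0 := by linear_combination h1 - h2
      have e2 : 2 * c = 0 := by linear_combination h2 + h1
      linear_combination (-2) * hxy + x * e1 + y * e2
    · apply two_ne_zero_of_le M hM
      have e1 : 2 * a = 0 := by linear_combination h1 + h2
      have e2 : 2 * c = 0 := by linear_combination h2 - h1
      linear_combination (-2) * hxy + x * e1 + y * e2

/-- `S T` has no fixed point (`M ≥ 4`) -/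
theorem ST_smul_ne (hM : 4 ≤ M) (q : Q1 M) : (S * T) • q ≠ q := by
  induction q using QuotientGroup.induction_on with
  | H g =>
    rw [smul_mk1, Ne, mk_eq_mk_iff1, col_ST_mul]
    obtain ⟨x, y, hxy⟩ := col_isUnimod M g
    set a := (col M g).1 with ha
    set c := (col M g).2 with hc
    have hcol : col M g = (a, c) := rfl
    rw [hcol]
    simp only [Prod.neg_mk, Prod.mk.injEq, neg_neg]
    rintro (⟨h1, h2⟩ | ⟨h1, h2⟩)
    · apply one_ne_zero_of_le M (by omega)
      have e1 : a = 0 := by linear_combination -h2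
      have e2 : c = 0 := by linear_combination h1 - e1
      linear_combination (-1) * hxy + x * e1 + y * e2
    · apply three_ne_zero_of_le M hM
      have e1 : 3 * c = 0 := by linear_combination h2 - h1
      have e2 : 3 * a = 0 := by linear_combination 3 * h1 + e1
      linear_combination (-3) * hxy + x * e2 + y * e1

/-! ### Orbit counts -/

section General

variable {G X : Type*} [Group G] [MulAction G X]

theorem card_fixedBy_eq_zero {s : G} (h : ∀ q : X, s • q ≠ q) : Nat.card (fixedBy X s) = 0 := by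
  have : IsEmpty (fixedBy X s) := ⟨fun q => h q.1 q.2⟩
  exact Nat.card_of_isEmpty

theorem card_fixedBy_eq_card {s : G} (h : ∀ q : X, s • q = q) :
    Nat.card (fixedBy X s) = Nat.card X := by
  have : fixedBy X s = Set.univ := by
    ext q; simp [mem_fixedBy, h q]
  rw [this]
  exact Nat.card_congr (Equiv.Set.univ X)

end General

theorem S_sq : (S : SL(2, ℤ)) ^ 2 = -1 := by decide

theorem ST_cube : (S * T : SL(2, ℤ)) ^ 3 = -1 := by decide

variable [NeZero M]

/-- **all `⟨S⟩`-orbits on `SL(2,ℤ) ⧸ ±Γ₁(M)` have two elements** -/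
theorem two_mul_card_orbits_S (hM : 3 ≤ M) :
    2 * Nat.card (orbitRel.Quotient (Subgroup.zpowers (S : SL(2, ℤ))) (Q1 M)) =
      Nat.card (Q1 M) := by
  have hB := burnside_zpowers (X := Q1 M) (S : SL(2, ℤ)) 4 (by norm_num) orderOf_S
  have h0 : Nat.card (fixedBy (Q1 M) ((S : SL(2, ℤ)) ^ 0)) = Nat.card (Q1 M) :=
    card_fixedBy_eq_card fun q => by rw [pow_zero, one_smul]
  have h1 : Nat.card (fixedBy (Q1 M) ((S : SL(2, ℤ)) ^ 1)) = 0 :=
    card_fixedBy_eq_zero fun q => by rw [pow_one]; exact S_smul_ne M hM q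
  have h2 : Nat.card (fixedBy (Q1 M) ((S : SL(2, ℤ)) ^ 2)) = Nat.card (Q1 M) :=
    card_fixedBy_eq_card fun q => by rw [S_sq]; exact neg_one_smul1 M q
  have h3 : Nat.card (fixedBy (Q1 M) ((S : SL(2, ℤ)) ^ 3)) = 0 :=
    card_fixedBy_eq_zero fun q hq => by
      apply S_smul_ne M hM q
      have h4 : (S : SL(2, ℤ)) • ((S : SL(2, ℤ)) ^ 3 • q) = q := by
        rw [← mul_smul, ← pow_succ', show (3 + 1) = 2 * 2 from rfl, pow_mul, S_sq]
        simp
      rw [hq] at h4
      exact h4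
  rw [Finset.sum_range_succ, Finset.sum_range_succ, Finset.sum_range_succ,
    Finset.sum_range_one, h0, h1, h2, h3] at hB
  exact (by omega : ∀ a b : ℕ, 4 * a = b + 0 + b + 0 → 2 * a = b) _ _ hB

/-- **all `⟨S T⟩`-orbits on `SL(2,ℤ) ⧸ ±Γ₁(M)` have three elements** -/
theorem three_mul_card_orbits_ST (hM : 4 ≤ M) :
    3 * Nat.card (orbitRel.Quotient (Subgroup.zpowers (S * T : SL(2, ℤ))) (Q1 M)) =
      Nat.card (Q1 M) := by
  have hB := burnside_zpowers (X := Q1 M) (S * T : SL(2, ℤ)) 6 (by norm_num) orderOf_ST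
  have hcube : ∀ q : Q1 M, (S * T : SL(2, ℤ)) ^ 3 • q = q := fun q => by
    rw [ST_cube]; exact neg_one_smul1 M q
  have hsq : ∀ q : Q1 M, (S * T : SL(2, ℤ)) ^ 2 • q ≠ q := fun q hq => by
    apply ST_smul_ne M hM q
    have h4 : (S * T : SL(2, ℤ)) • ((S * T : SL(2, ℤ)) ^ 2 • q) = q := by
      rw [← mul_smul, ← pow_succ']; exact hcube q
    rw [hq] at h4
    exact h4
  have h0 : Nat.card (fixedBy (Q1 M) ((S * T : SL(2, ℤ)) ^ 0)) = Nat.card (Q1 M) :=
    card_fixedBy_eq_card fun q => by rw [pow_zero, one_smul]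
  have h1 : Nat.card (fixedBy (Q1 M) ((S * T : SL(2, ℤ)) ^ 1)) = 0 :=
    card_fixedBy_eq_zero fun q => by rw [pow_one]; exact ST_smul_ne M hM q
  have h2 : Nat.card (fixedBy (Q1 M) ((S * T : SL(2, ℤ)) ^ 2)) = 0 :=
    card_fixedBy_eq_zero hsq
  have h3 : Nat.card (fixedBy (Q1 M) ((S * T : SL(2, ℤ)) ^ 3)) = Nat.card (Q1 M) :=
    card_fixedBy_eq_card hcube
  have h4 : Nat.card (fixedBy (Q1 M) ((S * T : SL(2, ℤ)) ^ 4)) = 0 :=
    card_fixedBy_eq_zero fun q hq => by
      apply ST_smul_ne M hM q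
      have : (S * T : SL(2, ℤ)) ^ 4 • q = (S * T : SL(2, ℤ)) • ((S * T : SL(2, ℤ)) ^ 3 • q) := by
        rw [← mul_smul, ← pow_succ']
      rw [this, hcube q] at hq
      exact hq
  have h5 : Nat.card (fixedBy (Q1 M) ((S * T : SL(2, ℤ)) ^ 5)) = 0 :=
    card_fixedBy_eq_zero fun q hq => by
      apply hsq q
      have : (S * T : SL(2, ℤ)) ^ 5 • q =
          (S * T : SL(2, ℤ)) ^ 2 • ((S * T : SL(2, ℤ)) ^ 3 • q) := by
        rw [← mul_smul, ← pow_add]
      rw [this, hcube q] at hq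
      exact hq
  rw [Finset.sum_range_succ, Finset.sum_range_succ, Finset.sum_range_succ,
    Finset.sum_range_succ, Finset.sum_range_succ, Finset.sum_range_one, h0, h1, h2, h3, h4, h5]
    at hB
  exact (by omega : ∀ a b : ℕ, 6 * a = b + 0 + 0 + b + 0 + 0 → 3 * a = b) _ _ hB

end Fermat.Agent.S48.B.B1.Count1.Free

end
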